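import Fermat.Agent.S17.Abs.Defs
import Fermat.Prelude.Def_GaloisRep_CompletionBridge

/-!
# S17-ABS: construction of a `GlobalAbs`
Index set `Option Nat.Primes`: `none ↦ |ι_∞ x|` for an embedding `ι_∞ : ℚ̄ → ℂ`, `some p ↦ ‖ι_p x‖` for an embedding
`ι_p : ℚ̄ → PadicAlgCl p` (`IsAlgClosed.lift`).
* `finite_one_lt`: `x` is a root of a monic polynomial over `ℤ[1/M]`; for `p ∤ M` nonarchimedean integrality gives `|x|_p ≤ 1`.
* product formula on `ℚ`: `‖(x : ℚ_[p])‖ = padicNorm p x`, factorisation of numerator and denominator.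
* Northcott: `∑_p log max(1,|a/b|_p) = log max(|a|,|b|)` for `a/b` in lowest terms.
-/

set_option autoImplicit false

namespace Fermat.Agent.S17

/-! ### arithmetic of `ℚ` -/

theorem Construct_finite_primes_dvd {n : ℕ} (hn : n ≠ 0) : {p : Nat.Primes | (p : ℕ) ∣ n}.Finite := by
  have h : {d : ℕ | d ∣ n}.Finite :=
    (Set.finite_Iic n).subset fun d hd => Nat.le_of_dvd (Nat.pos_of_ne_zero hn) hd
  exact Set.Finite.preimage (f := fun p : Nat.Primes => (p : ℕ)) Subtype.val_injective.injOn h

theorem Construct_finite_support_factorization (n : ℕ) :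
    (Function.support fun p : Nat.Primes => (n.factorization p : ℝ) * Real.log p).Finite := by
  rcases eq_or_ne n 0 with rfl | hn
  · simp
  refine (Construct_finite_primes_dvd hn).subset fun p hp => ?_
  simp only [Function.mem_support, ne_eq, mul_eq_zero, not_or, Nat.cast_eq_zero] at hp
  exact Nat.dvd_of_factorization_pos hp.1

/-- `log n = ∑_p v_p(n) log p`. -/
theorem Construct_finsum_factorization {n : ℕ} (hn : n ≠ 0) :
    ∑ᶠ p : Nat.Primes, (n.factorization p : ℝ) * Real.log p = Real.log n := by
  have h1 : ∑ᶠ p : Nat.Primes, (n.factorization p : ℝ) * Real.log p =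
      ∑ᶠ (p : ℕ) (_ : p.Prime), (n.factorization p : ℝ) * Real.log p :=
    finsum_subtype_eq_finsum_cond (f := fun p : ℕ => (n.factorization p : ℝ) * Real.log p)
      Nat.Prime
  rw [h1, finsum_cond_eq_sum_of_cond_iff (t := n.primeFactors)]
  · conv_rhs => rw [← Nat.prod_factorization_pow_eq_self hn]
    rw [Finsupp.prod, Nat.cast_prod, Real.log_prod]
    · refine Finset.sum_congr rfl fun p _ => ?_
      rw [Nat.cast_pow, Real.log_pow]
    · intro p hp
      have : p ≠ 0 := (Nat.prime_of_mem_primeFactors hp).ne_zero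
      positivity
  · intro p hp
    simp only [ne_eq, mul_eq_zero, not_or, Nat.cast_eq_zero] at hp
    have hmem : p ∈ n.primeFactors := by
      rw [← Nat.support_factorization, Finsupp.mem_support_iff]
      exact hp.1
    exact ⟨fun _ => hmem, fun _ => Nat.prime_of_mem_primeFactors hmem⟩

/-- the `p`-adic norm in terms of factorisations. -/
theorem Construct_padicNorm_eq (p : ℕ) [hp : Fact p.Prime] {x : ℚ} (hx : x ≠ 0) :
    ((padicNorm p x : ℚ) : ℝ) =
      (p : ℝ) ^ ((x.den.factorization p : ℤ) - (x.num.natAbs.factorization p : ℤ)) := by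
  rw [padicNorm.eq_zpow_of_nonzero hx, padicValRat_def, padicValInt,
    Nat.factorization_def _ hp.out, Nat.factorization_def _ hp.out]
  push_cast
  congr 1
  ring

theorem Construct_log_padicNorm (p : ℕ) [hp : Fact p.Prime] {x : ℚ} (hx : x ≠ 0) :
    Real.log ((padicNorm p x : ℚ) : ℝ) =
      (x.den.factorization p : ℝ) * Real.log p - (x.num.natAbs.factorization p : ℝ) * Real.log p := by
  rw [Construct_padicNorm_eq p hx, Real.log_zpow]
  push_cast
  ring

/-- `log max(1, |x|_p) = v_p(den x) log p`. -/
theorem Construct_log_max_padicNorm (p : ℕ) [hp : Fact p.Prime] (x : ℚ) :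
    Real.log (max 1 ((padicNorm p x : ℚ) : ℝ)) = (x.den.factorization p : ℝ) * Real.log p := by
  rcases eq_or_ne x 0 with rfl | hx
  · simp
  have hp1 : (1 : ℝ) ≤ p := by exact_mod_cast hp.out.one_le
  rw [Construct_padicNorm_eq p hx]
  by_cases hb : x.den.factorization p = 0
  · rw [hb, max_eq_left]
    · simp
    · rw [Nat.cast_zero, zero_sub, zpow_neg, zpow_natCast]
      exact inv_le_one_of_one_le₀ (one_le_pow₀ hp1)
  · have ha : x.num.natAbs.factorization p = 0 := by
      apply Nat.factorization_eq_zero_of_not_dvd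
      intro hdvd
      exact Nat.not_coprime_of_dvd_of_dvd hp.out.one_lt hdvd (Nat.dvd_of_factorization_pos hb)
        x.reduced
    rw [ha, Nat.cast_zero, sub_zero, zpow_natCast, max_eq_right (one_le_pow₀ hp1), Real.log_pow]

/-! ### the absolute values -/

instance Construct_fact (p : Nat.Primes) : Fact (p : ℕ).Prime := ⟨p.2⟩

theorem Construct_exists_embC : Nonempty (Qbar →+* ℂ) := by
  have : Algebra.IsAlgebraic ℚ (AlgebraicClosure ℚ) := AlgebraicClosure.isAlgebraic ℚ
  exact ⟨(IsAlgClosed.lift : AlgebraicClosure ℚ →ₐ[ℚ] ℂ).toRingHom⟩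

/-- an embedding `ℚ̄ → ℂ`. -/
noncomputable def Construct_embC : Qbar →+* ℂ := Construct_exists_embC.some

/-- the archimedean absolute value. -/
noncomputable def Construct_absInf : AbsoluteValue Qbar ℝ :=
  (NormedField.toAbsoluteValue ℂ).comp Construct_embC.injective

/-- the `p`-adic absolute value. -/
noncomputable def Construct_absP (p : Nat.Primes) : AbsoluteValue Qbar ℝ :=
  (NormedField.toAbsoluteValue (PadicAlgCl (p : ℕ))).comp
    (f := (padicEmbedding (p : ℕ)).toRingHom) (padicEmbedding (p : ℕ)).toRingHom.injective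

/-- the family. -/
noncomputable def Construct_abv : Option Nat.Primes → AbsoluteValue Qbar ℝ
  | none => Construct_absInf
  | some p => Construct_absP p

theorem Construct_absInf_apply (x : Qbar) : Construct_absInf x = ‖Construct_embC x‖ := rfl

theorem Construct_absP_apply (p : Nat.Primes) (x : Qbar) :
    Construct_absP p x = ‖padicEmbedding (p : ℕ) x‖ := rfl

theorem Construct_absInf_rat (x : ℚ) : Construct_absInf (algebraMap ℚ Qbar x) = |(x : ℝ)| := by
  rw [Construct_absInf_apply, eq_ratCast, map_ratCast]
  simp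

theorem Construct_norm_ratCast (p : ℕ) [Fact p.Prime] (x : ℚ) :
    ‖((x : ℚ) : PadicAlgCl p)‖ = ((padicNorm p x : ℚ) : ℝ) := by
  have h : ((x : ℚ) : PadicAlgCl p) = algebraMap ℚ_[p] (PadicAlgCl p) (x : ℚ_[p]) := by simp
  rw [h, PadicAlgCl.norm_extends, Padic.eq_padicNorm]

theorem Construct_absP_rat (p : Nat.Primes) (x : ℚ) :
    Construct_absP p (algebraMap ℚ Qbar x) = ((padicNorm (p : ℕ) x : ℚ) : ℝ) := by
  rw [Construct_absP_apply, eq_ratCast, map_ratCast, Construct_norm_ratCast]

theorem Construct_norm_le_one_of_isIntegral {q : ℕ} [Fact q.Prime] {y : PadicAlgCl q}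
    (hy : IsIntegral ℤ y) : ‖y‖ ≤ 1 := by
  have h : IsIntegral (padicIntegers q) y := hy.tower_top
  obtain ⟨z, hz⟩ := IsIntegrallyClosed.algebraMap_eq_of_integral h
  rw [← hz]
  exact z.2

theorem Construct_isNonarchimedean (p : Nat.Primes) :
    IsNonarchimedean (Construct_absP p : Qbar → ℝ) := by
  intro x y
  rw [Construct_absP_apply, Construct_absP_apply, Construct_absP_apply, map_add]
  exact PadicAlgCl.isNonarchimedean (p : ℕ) _ _

theorem Construct_finite_one_lt (x : Qbar) : {p | 1 < Construct_abv p x}.Finite := by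
  have halg : IsAlgebraic ℤ x := by
    have h1 : IsAlgebraic ℚ x := (AlgebraicClosure.isAlgebraic ℚ).isAlgebraic x
    exact (IsFractionRing.isAlgebraic_iff ℤ ℚ Qbar).mpr h1
  obtain ⟨M, hM0, hM⟩ := halg.exists_integral_multiple
  have hfin : {p : Nat.Primes | (p : ℕ) ∣ M.natAbs}.Finite :=
    Construct_finite_primes_dvd (Int.natAbs_ne_zero.mpr hM0)
  refine ((Set.finite_singleton none).union (hfin.image some)).subset ?_
  rintro (_ | p) hp
  · exact Or.inl rfl
  · right
    refine ⟨p, ?_, rfl⟩
    by_contra hnd
    have h1 : ‖padicEmbedding (p : ℕ) (M • x)‖ ≤ 1 :=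
      Construct_norm_le_one_of_isIntegral (hM.map (padicEmbedding (p : ℕ)).toRingHom.toIntAlgHom)
    have h2 : ‖((M : ℤ) : PadicAlgCl (p : ℕ))‖ = 1 := by
      have h3 := Construct_norm_ratCast (p : ℕ) (M : ℚ)
      rw [Rat.cast_intCast] at h3
      rw [h3, (padicNorm.int_eq_one_iff M).mpr, Rat.cast_one]
      intro hd
      exact hnd (Int.natCast_dvd.mp hd)
    rw [zsmul_eq_mul, map_mul, map_intCast, norm_mul, h2, one_mul] at h1
    exact absurd hp (not_lt.mpr h1)

/-! ### product formula and Northcott -/

theorem Construct_finite_support_sub (x : ℚ) :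
    (Function.support fun p : Nat.Primes =>
      (x.den.factorization p : ℝ) * Real.log p -
        (x.num.natAbs.factorization p : ℝ) * Real.log p).Finite :=
  ((Construct_finite_support_factorization x.den).union
    (Construct_finite_support_factorization x.num.natAbs)).subset
      (Function.support_sub _ _)

theorem Construct_product_formula (x : ℚ) (hx : x ≠ 0) :
    ∑ᶠ p, Real.log (Construct_abv p (algebraMap ℚ Qbar x)) = 0 := by
  have hsome : ∀ p : Nat.Primes, Real.log (Construct_abv (some p) (algebraMap ℚ Qbar x)) =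
      (x.den.factorization p : ℝ) * Real.log p -
        (x.num.natAbs.factorization p : ℝ) * Real.log p := by
    intro p
    show Real.log (Construct_absP p (algebraMap ℚ Qbar x)) = _
    rw [Construct_absP_rat, Construct_log_padicNorm (p : ℕ) hx]
  have hnum : x.num.natAbs ≠ 0 := Int.natAbs_ne_zero.mpr (Rat.num_ne_zero.mpr hx)
  rw [finsum_option]
  · simp only [hsome]
    rw [finsum_sub_distrib (Construct_finite_support_factorization x.den)
      (Construct_finite_support_factorization x.num.natAbs),
      Construct_finsum_factorization x.den_ne_zero, Construct_finsum_factorization hnum]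
    show Real.log (Construct_absInf (algebraMap ℚ Qbar x)) + _ = 0
    rw [Construct_absInf_rat]
    have h1 : |(x : ℝ)| = (x.num.natAbs : ℝ) / (x.den : ℝ) := by
      conv_lhs => rw [← Rat.num_div_den x]
      push_cast
      rw [abs_div, Nat.abs_cast, Nat.cast_natAbs]
      push_cast
      rfl
    rw [h1, Real.log_div (by exact_mod_cast hnum) (by exact_mod_cast x.den_ne_zero)]
    ring
  · refine (Construct_finite_support_sub x).subset fun p hp => ?_
    simp only [Function.mem_support, Function.comp] at hp ⊢
    rwa [hsome] at hp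

/-- the height of a rational number. -/
theorem Construct_height_eq (x : ℚ) :
    ∑ᶠ p, Real.log (max 1 (Construct_abv p (algebraMap ℚ Qbar x))) =
      Real.log (max 1 |(x : ℝ)|) + Real.log x.den := by
  have hsome : ∀ p : Nat.Primes,
      Real.log (max 1 (Construct_abv (some p) (algebraMap ℚ Qbar x))) =
        (x.den.factorization p : ℝ) * Real.log p := by
    intro p
    show Real.log (max 1 (Construct_absP p (algebraMap ℚ Qbar x))) = _
    rw [Construct_absP_rat, Construct_log_max_padicNorm (p : ℕ) x]
  rw [finsum_option]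
  · simp only [hsome]
    rw [Construct_finsum_factorization x.den_ne_zero]
    show Real.log (max 1 (Construct_absInf (algebraMap ℚ Qbar x))) + _ = _
    rw [Construct_absInf_rat]
  · refine (Construct_finite_support_factorization x.den).subset fun p hp => ?_
    simp only [Function.mem_support, Function.comp] at hp ⊢
    rwa [hsome] at hp

theorem Construct_northcott (B : ℝ) :
    {x : ℚ | ∑ᶠ p, Real.log (max 1 (Construct_abv p (algebraMap ℚ Qbar x))) ≤ B}.Finite := by
  set M : ℕ := ⌈Real.exp B⌉₊ with hM
  have hfin : ((Set.Icc (-(M : ℤ)) M) ×ˢ (Set.Icc 0 M) : Set (ℤ × ℕ)).Finite :=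
    (Set.finite_Icc _ _).prod (Set.finite_Icc _ _)
  have hinj : Function.Injective fun x : ℚ => (x.num, x.den) := by
    intro x y hxy
    simp only [Prod.mk.injEq] at hxy
    exact Rat.ext hxy.1 hxy.2
  refine (Set.Finite.preimage hinj.injOn hfin).subset fun x hx => ?_
  rw [Set.mem_ofPred_eq, Construct_height_eq] at hx
  have hden : (0 : ℝ) < x.den := by exact_mod_cast x.den_pos
  have hden1 : (1 : ℝ) ≤ x.den := by exact_mod_cast x.den_pos
  have hmax : (0 : ℝ) < max 1 |(x : ℝ)| := lt_of_lt_of_le one_pos (le_max_left _ _)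
  have h0 : 0 ≤ Real.log (max 1 |(x : ℝ)|) := Real.log_nonneg (le_max_left _ _)
  -- the denominator
  have h1 : (x.den : ℝ) ≤ Real.exp B := by
    rw [← Real.log_le_iff_le_exp hden]
    linarith
  -- the numerator
  have h2 : max 1 |(x : ℝ)| * x.den ≤ Real.exp B := by
    rw [← Real.log_le_iff_le_exp (mul_pos hmax hden), Real.log_mul hmax.ne' hden.ne']
    exact hx
  have h3 : |(x.num : ℝ)| ≤ Real.exp B := by
    have e : (x.num : ℝ) = (x : ℝ) * x.den := by
      have := Rat.mul_den_eq_num x
      exact_mod_cast this.symm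
    rw [e, abs_mul, Nat.abs_cast]
    exact (mul_le_mul_of_nonneg_right (le_max_right _ _) hden.le).trans h2
  have hMB : Real.exp B ≤ M := Nat.le_ceil _
  simp only [Set.mem_preimage, Set.mem_prod, Set.mem_Icc]
  have h4 := abs_le.mp (h3.trans hMB)
  refine ⟨⟨?_, ?_⟩, Nat.zero_le _, ?_⟩
  · exact_mod_cast h4.1
  · exact_mod_cast h4.2
  · exact_mod_cast h1.trans hMB

theorem nonempty_globalAbs : Nonempty GlobalAbs := by
  refine ⟨{ ι := Option Nat.Primes
            abv := Construct_abv
            finite_arch := ?_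
            finite_one_lt := Construct_finite_one_lt
            product_formula := Construct_product_formula
            northcott := Construct_northcott }⟩
  refine (Set.finite_singleton none).subset ?_
  rintro (_ | p) hp
  · rfl
  · exact absurd (Construct_isNonarchimedean p) hp

end Fermat.Agent.S17
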