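import Fermat.Agent.S17.Abs.Defs

/-!
# S17-ABS: Galois-stable multisets of algebraic numbers: product formula and Northcott
-/

set_option autoImplicit false

namespace Fermat.Agent.S17

theorem mem_range_of_fixed (x : Qbar) (hx : ∀ σ : GQ, σ x = x) : ∃ r : ℚ, algebraMap ℚ Qbar r = x := by
  have hcl : IsAlgClosure ℚ (AlgebraicClosure ℚ) := by
    have e : (DivisionRing.toRatAlgebra : Algebra ℚ (AlgebraicClosure ℚ)) =
      AlgebraicClosure.instAlgebra ℚ := Subsingleton.elim _ _
    rw! [e]
    infer_instance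
  have : IsGalois ℚ (AlgebraicClosure ℚ) := inferInstance
  exact (InfiniteGalois.mem_range_algebraMap_iff_fixed x).2 hx

theorem stable_log_prod (v : AbsoluteValue Qbar ℝ) (s : Multiset Qbar) (h0 : (0 : Qbar) ∉ s) :
    (s.map fun x => Real.log (v x)).sum = Real.log (v s.prod) := by
  induction s using Multiset.induction_on with
  | empty => simp
  | cons a s ih =>
    have ha : a ≠ 0 := fun h => h0 (by simp [h])
    have hs : (0 : Qbar) ∉ s := fun h => h0 (Multiset.mem_cons_of_mem h)
    have hp : s.prod ≠ 0 := Multiset.prod_ne_zero hs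
    rw [Multiset.map_cons, Multiset.sum_cons, Multiset.prod_cons, map_mul,
      Real.log_mul (v.ne_zero ha) (v.ne_zero hp), ih hs]

/-- product formula for a Galois-stable multiset of nonzero algebraic numbers -/
theorem GlobalAbs.sum_log_eq_zero (𝔸 : GlobalAbs) (s : Multiset Qbar) (hs : ∀ σ : GQ, s.map σ = s) (h0 : (0 : Qbar) ∉ s) :
    ∑ᶠ p, (s.map fun x => Real.log (𝔸.abv p x)).sum = 0 := by
  have hp : s.prod ≠ 0 := Multiset.prod_ne_zero h0
  obtain ⟨r, hr⟩ := mem_range_of_fixed s.prod (fun σ => by rw [map_multiset_prod, hs σ])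
  have hr0 : r ≠ 0 := by
    rintro rfl
    exact hp (by rw [← hr, map_zero])
  simp only [stable_log_prod _ s h0, ← hr]
  exact 𝔸.product_formula r hr0

/-- variant: an element whose square is the product... if `x^2` is Galois invariant and `x ≠ 0`. -/
theorem GlobalAbs.sum_log_eq_zero_of_sq (𝔸 : GlobalAbs) (x : Qbar) (hx : ∀ σ : GQ, σ x = x ∨ σ x = -x) (h0 : x ≠ 0) :
    ∑ᶠ p, Real.log (𝔸.abv p x) = 0 := by
  have h2 : ∀ σ : GQ, σ (x ^ 2) = x ^ 2 := by
    intro σ
    rw [map_pow]
    rcases hx σ with h | h <;> rw [h]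
    ring
  obtain ⟨r, hr⟩ := mem_range_of_fixed (x ^ 2) h2
  have hr0 : r ≠ 0 := by
    rintro rfl
    exact pow_ne_zero 2 h0 (by rw [← hr, map_zero])
  have h3 := 𝔸.product_formula r hr0
  rw [hr] at h3
  simp only [map_pow, Real.log_pow] at h3
  rw [← mul_finsum] at h3
  simpa using h3

/-- variant for a multiset stable up to signs -/
theorem GlobalAbs.sum_log_eq_zero_of_sq' (𝔸 : GlobalAbs) (s : Multiset Qbar)
    (hs : ∀ σ : GQ, (s.map fun x => σ x ^ 2) = s.map fun x => x ^ 2) (h0 : (0 : Qbar) ∉ s) :
    ∑ᶠ p, (s.map fun x => Real.log (𝔸.abv p x)).sum = 0 := by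
  have h := 𝔸.sum_log_eq_zero (s.map fun x => x ^ 2) (fun σ => by
      rw [Multiset.map_map]
      simpa [Function.comp_def, map_pow] using hs σ) (by
      intro h
      obtain ⟨a, ha, ha0⟩ := Multiset.mem_map.1 h
      rw [pow_eq_zero_iff two_ne_zero] at ha0
      exact h0 (ha0 ▸ ha))
  simp only [Multiset.map_map, Function.comp_def, map_pow, Real.log_pow,
    Multiset.sum_map_mul_left] at h
  rw [← mul_finsum] at h
  simpa using h

theorem GlobalAbs.finite_support_log (𝔸 : GlobalAbs) {x : Qbar} (hx : x ≠ 0) :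
    (Function.support fun p => Real.log (𝔸.abv p x)).Finite := by
  refine (𝔸.toAbsFam.finite_ne_one hx).subset fun p hp h1 => hp ?_
  simp only [h1, Real.log_one]

theorem GlobalAbs.finite_support_log_max (𝔸 : GlobalAbs) (x : Qbar) :
    (Function.support fun p => Real.log (max 1 (𝔸.abv p x))).Finite := by
  refine (𝔸.finite_one_lt x).subset fun p hp => ?_
  by_contra h
  apply hp
  simp only [Set.mem_ofPred_eq, not_lt] at h
  simp only [max_eq_left h, Real.log_one]

theorem stable_one_le_prod (v : AbsoluteValue Qbar ℝ) (s : Multiset Qbar) :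
    1 ≤ (s.map fun y => max 1 (v y)).prod := by
  induction s using Multiset.induction_on with
  | empty => simp
  | cons a s ih =>
    rw [Multiset.map_cons, Multiset.prod_cons]
    exact one_le_mul_of_one_le_of_one_le (le_max_left _ _) ih

theorem stable_log_prod_max (v : AbsoluteValue Qbar ℝ) (s : Multiset Qbar) :
    Real.log ((s.map fun y => max 1 (v y)).prod) =
      (s.map fun y => Real.log (max 1 (v y))).sum := by
  induction s using Multiset.induction_on with
  | empty => simp
  | cons a s ih =>
    have h1 : (0 : ℝ) < max 1 (v a) := lt_of_lt_of_le one_pos (le_max_left _ _)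
    have h2 : (0 : ℝ) < (s.map fun y => max 1 (v y)).prod :=
      lt_of_lt_of_le one_pos (stable_one_le_prod v s)
    rw [Multiset.map_cons, Multiset.prod_cons, Multiset.map_cons, Multiset.sum_cons,
      Real.log_mul h1.ne' h2.ne', ih]

open Polynomial in
theorem stable_coeff_le (v : AbsoluteValue Qbar ℝ) {c : ℝ} (hc1 : 1 ≤ c)
    (hc : ∀ a b, v (a + b) ≤ c * max (v a) (v b)) (s : Multiset Qbar) (k : ℕ) :
    v ((s.map fun y => X - C y).prod.coeff k) ≤
      c ^ s.card * (s.map fun y => max 1 (v y)).prod := by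
  induction s using Multiset.induction_on generalizing k with
  | empty =>
    simp only [Multiset.map_zero, Multiset.prod_zero, Multiset.card_zero, pow_zero, mul_one]
    rw [coeff_one]
    split_ifs <;> simp
  | cons a s ih =>
    have hB0 : 0 ≤ c ^ s.card * (s.map fun y => max 1 (v y)).prod :=
      mul_nonneg (pow_nonneg (by linarith) _) (by linarith [stable_one_le_prod v s])
    rw [Multiset.map_cons, Multiset.prod_cons, Multiset.map_cons, Multiset.prod_cons,
      Multiset.card_cons]
    obtain ⟨u, hu, he⟩ : ∃ u, v u ≤ c ^ s.card * (s.map fun y => max 1 (v y)).prod ∧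
        ((X - C a) * (s.map fun y => X - C y).prod).coeff k =
          u + (-(a * (s.map fun y => X - C y).prod.coeff k)) := by
      cases k with
      | zero => exact ⟨0, by simpa using hB0, by simp [sub_mul]⟩
      | succ k =>
        exact ⟨_, ih k, by rw [sub_mul, coeff_sub, coeff_X_mul, coeff_C_mul, sub_eq_add_neg]⟩
    rw [he]
    calc v (u + -(a * (s.map fun y => X - C y).prod.coeff k))
        ≤ c * max (v u) (v (-(a * (s.map fun y => X - C y).prod.coeff k))) := hc _ _
      _ ≤ c * (max 1 (v a) * (c ^ s.card * (s.map fun y => max 1 (v y)).prod)) := by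
          refine mul_le_mul_of_nonneg_left (max_le ?_ ?_) (by linarith)
          · calc v u ≤ 1 * (c ^ s.card * (s.map fun y => max 1 (v y)).prod) := by
                  rw [one_mul]; exact hu
              _ ≤ _ := mul_le_mul_of_nonneg_right (le_max_left _ _) hB0
          · rw [v.map_neg, map_mul]
            exact mul_le_mul (le_max_right _ _) (ih k) (v.nonneg _)
              (le_trans zero_le_one (le_max_left _ _))
      _ = c ^ (s.card + 1) * (max 1 (v a) * (s.map fun y => max 1 (v y)).prod) := by ring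

open Polynomial in
theorem stable_log_coeff_le (v : AbsoluteValue Qbar ℝ) {c : ℝ} (hc1 : 1 ≤ c)
    (hc : ∀ a b, v (a + b) ≤ c * max (v a) (v b)) (s : Multiset Qbar) (k : ℕ) :
    Real.log (max 1 (v ((s.map fun y => X - C y).prod.coeff k))) ≤
      (s.card : ℝ) * Real.log c + (s.map fun y => Real.log (max 1 (v y))).sum := by
  have h1 := stable_coeff_le v hc1 hc s k
  have h3 := stable_one_le_prod v s
  have h4 : 1 ≤ c ^ s.card := one_le_pow₀ hc1
  have h2 : 1 ≤ c ^ s.card * (s.map fun y => max 1 (v y)).prod :=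
    one_le_mul_of_one_le_of_one_le h4 h3
  calc Real.log (max 1 (v ((s.map fun y => X - C y).prod.coeff k)))
      ≤ Real.log (c ^ s.card * (s.map fun y => max 1 (v y)).prod) :=
        Real.log_le_log (lt_of_lt_of_le one_pos (le_max_left _ _)) (max_le h2 h1)
    _ = _ := by
        rw [Real.log_mul (by linarith) (by linarith), Real.log_pow, stable_log_prod_max]

theorem stable_finite_support_sum {ι : Type} (F : ι → Qbar → ℝ) (s : Multiset Qbar)
    (h : ∀ y, (Function.support fun p => F p y).Finite) :
    (Function.support fun p => (s.map (F p)).sum).Finite := by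
  induction s using Multiset.induction_on with
  | empty => simp
  | cons a s ih =>
    simp only [Multiset.map_cons, Multiset.sum_cons]
    exact ((h a).union ih).subset (Function.support_add _ _)

/-- **Northcott for Galois-stable multisets.**  Proof: `∏_{y ∈ s} (X - y) ∈ ℚ[X]`; its coefficients `c` satisfy
`max(1,|c|_p) ≤ C_p ∏ max(1,|y|_p)` with `C_p = 2^M` at the finitely many archimedean `p`, `C_p = 1` otherwise; so each coefficient
lies in a finite set by `𝔸.northcott`; finitely many polynomials of degree `≤ M`, finitely many roots. -/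
theorem GlobalAbs.northcott_stable (𝔸 : GlobalAbs) (M : ℕ) (B : ℝ) :
    {x : Qbar | ∃ s : Multiset Qbar, (∀ σ : GQ, s.map σ = s) ∧ s.card ≤ M ∧ x ∈ s ∧
      ∑ᶠ p, (s.map fun y => Real.log (max 1 (𝔸.abv p y))).sum ≤ B}.Finite := by
  classical
  set cst : 𝔸.ι → ℝ := fun p => if IsNonarchimedean (𝔸.abv p : Qbar → ℝ) then 1 else 2 with hcst
  have hc1 : ∀ p, 1 ≤ cst p := by
    intro p
    simp only [hcst]
    split_ifs <;> norm_num
  have hc : ∀ p a b, 𝔸.abv p (a + b) ≤ cst p * max (𝔸.abv p a) (𝔸.abv p b) := by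
    intro p a b
    simp only [hcst]
    split_ifs with h
    · rw [one_mul]
      exact h a b
    · calc 𝔸.abv p (a + b) ≤ 𝔸.abv p a + 𝔸.abv p b := (𝔸.abv p).add_le a b
        _ ≤ 2 * max (𝔸.abv p a) (𝔸.abv p b) := by
          linarith [le_max_left (𝔸.abv p a) (𝔸.abv p b), le_max_right (𝔸.abv p a) (𝔸.abv p b)]
  have hcfin : (Function.support fun p => Real.log (cst p)).Finite := by
    refine 𝔸.finite_arch.subset fun p hp h => hp ?_
    simp only [hcst, if_pos h, Real.log_one]
  set A := ∑ᶠ p, Real.log (cst p) with hA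
  have hA0 : 0 ≤ A := finsum_nonneg fun p => Real.log_nonneg (hc1 p)
  have hfin := Polynomial.bUnion_roots_finite (algebraMap ℚ Qbar) M (𝔸.northcott (M * A + B))
  refine hfin.subset ?_
  rintro x ⟨s, hs, hcard, hxs, hsum⟩
  set f : Polynomial Qbar := (s.map fun y => Polynomial.X - Polynomial.C y).prod with hf
  have hfix : ∀ σ : GQ, f.map (σ : Qbar →+* Qbar) = f := by
    intro σ
    rw [hf, Polynomial.map_multiset_prod, Multiset.map_map]
    conv_rhs => rw [← hs σ, Multiset.map_map]
    congr 1
    refine Multiset.map_congr rfl fun y _ => ?_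
    simp
  have hlift : f ∈ Polynomial.lifts (algebraMap ℚ Qbar) := by
    rw [Polynomial.lifts_iff_coeff_lifts]
    intro k
    obtain ⟨r, hr⟩ := mem_range_of_fixed (f.coeff k) (fun σ => by
      have := congrArg (fun g => Polynomial.coeff g k) (hfix σ)
      simpa [Polynomial.coeff_map] using this)
    exact ⟨r, hr⟩
  obtain ⟨g, hg⟩ := (Polynomial.mem_lifts _).1 hlift
  simp only [Set.mem_iUnion]
  refine ⟨g, ⟨?_, ?_⟩, ?_⟩
  · rw [← Polynomial.natDegree_map (algebraMap ℚ Qbar), hg, hf,
      Polynomial.natDegree_multiset_prod_X_sub_C_eq_card]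
    exact hcard
  · intro i
    change ∑ᶠ p, Real.log (max 1 (𝔸.abv p (algebraMap ℚ Qbar (g.coeff i)))) ≤ M * A + B
    rw [← Polynomial.coeff_map, hg]
    have hS : (Function.support fun p =>
        (s.map fun y => Real.log (max 1 (𝔸.abv p y))).sum).Finite :=
      stable_finite_support_sum (fun p y => Real.log (max 1 (𝔸.abv p y))) s
        (fun y => 𝔸.finite_support_log_max y)
    have hC : (Function.support fun p => (s.card : ℝ) * Real.log (cst p)).Finite :=
      hcfin.subset (fun p hp h => hp (by simp only [h, mul_zero]))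
    calc ∑ᶠ p, Real.log (max 1 (𝔸.abv p (f.coeff i)))
        ≤ ∑ᶠ p, ((s.card : ℝ) * Real.log (cst p) +
            (s.map fun y => Real.log (max 1 (𝔸.abv p y))).sum) :=
          finsum_le_finsum' (𝔸.finite_support_log_max _)
            ((hC.union hS).subset (Function.support_add _ _))
            (fun p => stable_log_coeff_le (𝔸.abv p) (hc1 p) (hc p) s i)
      _ = (s.card : ℝ) * A + ∑ᶠ p, (s.map fun y => Real.log (max 1 (𝔸.abv p y))).sum := by
          rw [finsum_add_distrib hC hS, ← mul_finsum]
      _ ≤ M * A + B :=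
          add_le_add (mul_le_mul_of_nonneg_right (by exact_mod_cast hcard) hA0) hsum
  · rw [hg, hf, Polynomial.roots_multiset_prod_X_sub_C]
    simpa using hxs

end Fermat.Agent.S17
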