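import Fermat.Agent.S17.Alg.Est

/-!
# S17-ABS: absolute values on `ℚ̄` indexed by the places of `ℚ`
-/

set_option autoImplicit false

namespace Fermat.Agent.S17

abbrev Qbar : Type := AlgebraicClosure ℚ
abbrev GQ : Type := Qbar ≃ₐ[ℚ] Qbar

/-- One absolute value of `ℚ̄` above each place of `ℚ`, with the product formula on `ℚ^*` and Northcott on `ℚ`. -/
structure GlobalAbs extends AbsFam Qbar where
  product_formula : ∀ x : ℚ, x ≠ 0 → ∑ᶠ p, Real.log (abv p (algebraMap ℚ Qbar x)) = 0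
  northcott : ∀ B : ℝ, {x : ℚ | ∑ᶠ p, Real.log (max 1 (abv p (algebraMap ℚ Qbar x))) ≤ B}.Finite

end Fermat.Agent.S17
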